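import Fermat.Prelude.Def_GaloisRep_LocalConditions
import Fermat.Agent.TW.Hopf.OrdLin

/-!
# Block P, node P-B4a (R-SHAPE): the shape of an adic representation whose residual
representation is ordinary at `p` (helper9)

`ρ : GaloisRepAdic T`, `T` local with residue field `κ`.  If the residual representation
`ρ.residual` (a representation on `κ ⊗[T] ρ.V`) is ordinary at `p`, then for every place `P` over
`p` there is a `T`-basis `b` of `ρ.V` in which `ρ(σ)` is upper triangular modulo `𝔪_T` for
`σ ∈ D_P`, with lower-right entry `≡ 1` modulo `𝔪_T` for `σ ∈ I_P`.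

The first vector of the basis is a lift `v₀` of a generator of the residual ordinary line; it is
completed to a basis by `TW.Hopf.OrdLin.exists_basis_of_notMem` and coordinates are compared in the
`κ`-basis `b.baseChange κ` of `κ ⊗[T] ρ.V`.
-/

set_option autoImplicit false

namespace Fermat.Agent.FF3.PShape

open IsLocalRing Module
open scoped TensorProduct

section Coord

variable {T : Type*} [CommRing T] [IsLocalRing T]
variable {V : Type*} [AddCommGroup V] [Module T V]

/-- coordinates of `1 ⊗ v` in the base-changed basis are the residues of the coordinates of `v`. -/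
theorem baseChange_repr_one_tmul (b : Basis (Fin 2) T V) (v : V) (i : Fin 2) :
    (b.baseChange (ResidueField T)).repr ((1 : ResidueField T) ⊗ₜ[T] v) i =
      residue T (b.repr v i) := by
  rw [Basis.baseChange_repr_tmul, Algebra.smul_def, mul_one, ResidueField.algebraMap_eq]

/-- the second coordinate vanishes on the line spanned by the first basis vector. -/
theorem repr_one_eq_zero_of_mem_span {K W : Type*} [Field K] [AddCommGroup W] [Module K W]
    (c : Basis (Fin 2) K W) {w : W} (hw : w ∈ K ∙ c 0) : c.repr w 1 = 0 := by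
  obtain ⟨a, rfl⟩ := Submodule.mem_span_singleton.mp hw
  rw [map_smul, Finsupp.smul_apply, Basis.repr_self, Finsupp.single_apply, if_neg (by decide),
    smul_zero]

/-- `1 ⊗ v = 0` in `κ ⊗[T] V` for `v ∈ 𝔪 V`. -/
theorem one_tmul_eq_zero_of_mem {v : V} (hv : v ∈ maximalIdeal T • (⊤ : Submodule T V)) :
    (1 : ResidueField T) ⊗ₜ[T] v = 0 := by
  refine Submodule.smul_induction_on
    (p := fun x => (1 : ResidueField T) ⊗ₜ[T] x = (0 : ResidueField T ⊗[T] V)) hv ?_ ?_
  · intro a ha w _
    rw [TensorProduct.tmul_smul, TensorProduct.smul_tmul', Algebra.smul_def,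
      ResidueField.algebraMap_eq, (residue_eq_zero_iff a).mpr ha, zero_mul,
      TensorProduct.zero_tmul]
  · intro x y hx hy
    rw [TensorProduct.tmul_add, hx, hy, add_zero]

/-- every element of `κ ⊗[T] V` is of the form `1 ⊗ v`. -/
theorem exists_one_tmul_eq (w : ResidueField T ⊗[T] V) :
    ∃ v : V, (1 : ResidueField T) ⊗ₜ[T] v = w := by
  obtain ⟨v, hv⟩ := TensorProduct.mk_surjective T V (ResidueField T)
    (by rw [ResidueField.algebraMap_eq]; exact residue_surjective) w
  exact ⟨v, hv⟩

end Coord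

/-- the linear-algebra core: a `D`-stable line `L = κ ∙ c₀ 0` of `κ ⊗[T] V` on whose quotient `I`
acts trivially gives an adapted `T`-basis of `V`. -/
theorem exists_basis_shape_aux {T : Type*} [CommRing T] [IsLocalRing T]
    {V : Type*} [AddCommGroup V] [Module T V] {G : Type*} (r : G → Module.End T V)
    (b₀ : Basis (Fin 2) T V) (D I : Set G)
    (L : Submodule (ResidueField T) (ResidueField T ⊗[T] V))
    (c₀ : Basis (Fin 2) (ResidueField T) (ResidueField T ⊗[T] V))
    (hL : L = ResidueField T ∙ c₀ 0)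
    (hD : ∀ σ ∈ D, ∀ v ∈ L, (r σ).baseChange (ResidueField T) v ∈ L)
    (hI : ∀ σ ∈ I, ∀ v : ResidueField T ⊗[T] V,
      (r σ).baseChange (ResidueField T) v - v ∈ L) :
    ∃ b : Basis (Fin 2) T V,
      (∀ σ ∈ D, LinearMap.toMatrix b b (r σ) 1 0 ∈ maximalIdeal T) ∧
      (∀ σ ∈ I, LinearMap.toMatrix b b (r σ) 1 1 - 1 ∈ maximalIdeal T) := by
  classical
  -- lift the generator of the line
  obtain ⟨v₀, hv₀⟩ := exists_one_tmul_eq (c₀ 0)
  have hv₀' : v₀ ∉ maximalIdeal T • (⊤ : Submodule T V) := by
    intro h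
    have h0 : c₀ 0 = 0 := by rw [← hv₀]; exact one_tmul_eq_zero_of_mem h
    exact c₀.ne_zero 0 h0
  obtain ⟨b, hb0⟩ := Fermat.Agent.TW.Hopf.OrdLin.exists_basis_of_notMem b₀ hv₀'
  have hc0 : b.baseChange (ResidueField T) 0 = c₀ 0 := by
    rw [Basis.baseChange_apply, hb0, hv₀]
  have hLc : L = ResidueField T ∙ b.baseChange (ResidueField T) 0 := by rw [hL, hc0]
  refine ⟨b, fun σ hσ => ?_, fun σ hσ => ?_⟩
  · -- `D`: lower-left entry
    have h1 : (r σ).baseChange (ResidueField T) (b.baseChange (ResidueField T) 0) ∈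
        ResidueField T ∙ b.baseChange (ResidueField T) 0 := by
      rw [← hLc]
      exact hD σ hσ _ (by rw [hLc]; exact Submodule.mem_span_singleton_self _)
    have h2 := repr_one_eq_zero_of_mem_span (b.baseChange (ResidueField T)) h1
    rw [Basis.baseChange_apply, LinearMap.baseChange_tmul, baseChange_repr_one_tmul] at h2
    rw [LinearMap.toMatrix_apply]
    exact (residue_eq_zero_iff _).mp h2
  · -- `I`: lower-right entry
    have h1 : (r σ).baseChange (ResidueField T) (b.baseChange (ResidueField T) 1) -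
        b.baseChange (ResidueField T) 1 ∈ ResidueField T ∙ b.baseChange (ResidueField T) 0 := by
      rw [← hLc]
      exact hI σ hσ _
    have h2 := repr_one_eq_zero_of_mem_span (b.baseChange (ResidueField T)) h1
    rw [Basis.baseChange_apply, LinearMap.baseChange_tmul, ← TensorProduct.tmul_sub,
      baseChange_repr_one_tmul, map_sub, Finsupp.sub_apply, Basis.repr_self,
      Finsupp.single_apply, if_pos rfl] at h2
    rw [LinearMap.toMatrix_apply]
    exact (residue_eq_zero_iff _).mp h2

/-- **P-B4a (R-SHAPE)**: the contract literal. -/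
theorem exists_basis_residual_shape {T : Type} [CommRing T] [IsLocalRing T]
    (ρ : GaloisRepAdic T) {p : ℕ}
    (hres : (GaloisRepAdic.ofResidualGaloisRep ρ.residual).IsOrdinaryAt p)
    {P : ValuationSubring (AlgebraicClosure ℚ)} (hP : P.LiesOverPrime p) :
    ∃ b : Module.Basis (Fin 2) T ρ.V,
      (∀ σ ∈ P.decompositionSubgroup ℚ,
        LinearMap.toMatrix b b (ρ.ρ σ) 1 0 ∈ maximalIdeal T) ∧
      (∀ σ ∈ P.inertiaSubgroupIn ℚ,
        LinearMap.toMatrix b b (ρ.ρ σ) 1 1 - 1 ∈ maximalIdeal T) := by
  obtain ⟨L, ⟨c₀, hL⟩, hD, hI⟩ := hres P hP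
  exact exists_basis_shape_aux (fun σ => ρ.ρ σ) (Module.finBasisOfFinrankEq T ρ.V ρ.finrank_eq)
    (P.decompositionSubgroup ℚ : Set _) (P.inertiaSubgroupIn ℚ : Set _) L c₀ hL hD hI

end Fermat.Agent.FF3.PShape
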